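/-
S41 / CSP backup route (helper7 #3041), [ARITH] tools (helper31).
Dirichlet's theorem for two / three pairwise coprime moduli (CRT + `Nat.forall_exists_prime_gt_and_modEq`).
Mathlib only.
-/
import Mathlib.NumberTheory.LSeries.PrimesInAP
import Mathlib.Data.Nat.ChineseRemainder

set_option autoImplicit false

namespace Fermat.Agent.S41.CspArith31

/-- Dirichlet for two coprime moduli. -/
theorem exists_prime_gt_modEq_two (B : ℕ) {m n a b : ℕ} (hm : m ≠ 0) (hn : n ≠ 0)
    (hmn : m.Coprime n) (ha : a.Coprime m) (hb : b.Coprime n) :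
    ∃ p > B, p.Prime ∧ p ≡ a [MOD m] ∧ p ≡ b [MOD n] := by
  obtain ⟨c, hca, hcb⟩ := Nat.chineseRemainder hmn a b
  have hcm : c.Coprime m := by
    have := hca.gcd_eq
    rw [Nat.Coprime, this]; exact ha
  have hcn : c.Coprime n := by
    have := hcb.gcd_eq
    rw [Nat.Coprime, this]; exact hb
  have hc : c.Coprime (m * n) := Nat.Coprime.mul_right hcm hcn
  obtain ⟨p, hpB, hp, hpc⟩ := Nat.forall_exists_prime_gt_and_modEq B (Nat.mul_ne_zero hm hn) hc
  exact ⟨p, hpB, hp, (hpc.of_mul_right n).trans hca, (hpc.of_mul_left m).trans hcb⟩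

/-- Dirichlet for three pairwise coprime moduli. -/
theorem exists_prime_gt_modEq_three (B : ℕ) {m n k a b c : ℕ} (hm : m ≠ 0) (hn : n ≠ 0)
    (hk : k ≠ 0) (hmn : m.Coprime n) (hmk : m.Coprime k) (hnk : n.Coprime k)
    (ha : a.Coprime m) (hb : b.Coprime n) (hc : c.Coprime k) :
    ∃ p > B, p.Prime ∧ p ≡ a [MOD m] ∧ p ≡ b [MOD n] ∧ p ≡ c [MOD k] := by
  obtain ⟨e, heb, hec⟩ := Nat.chineseRemainder hnk b c
  have hen : e.Coprime n := by
    have := heb.gcd_eq
    rw [Nat.Coprime, this]; exact hb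
  have hek : e.Coprime k := by
    have := hec.gcd_eq
    rw [Nat.Coprime, this]; exact hc
  obtain ⟨p, hpB, hp, hpa, hpe⟩ := exists_prime_gt_modEq_two B hm (Nat.mul_ne_zero hn hk)
    (Nat.Coprime.mul_right hmn hmk) ha (Nat.Coprime.mul_right hen hek)
  exact ⟨p, hpB, hp, hpa, (hpe.of_mul_right k).trans heb, (hpe.of_mul_left n).trans hec⟩

end Fermat.Agent.S41.CspArith31
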