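/-
S41 / CSP backup route (helper7 #3041), [ARITH] (helper31): the two Dirichlet/CRT existence lemmas
of §3.  Mathlib only; pure `ℕ` / `ZMod` statements.

* `exists_prime_R`   : the prime `r` (`r ≡ κ mod a'`, `r ≡ 3 mod 4`, `r ≡ 2 mod K`, `K` odd);
* `consequences of R`: `coprime_pred_of_modEq_two`, `odd_half_pred_of_mod_four`, …
* `orderOf_sq_dvd_half` : `ord_r(q²) ∣ (r-1)/2`;
* `exists_rho_j`     : the prime `ρ` and the exponent `j` with `q^(2j) ≡ 1 mod D₂ ρ`,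
  `q^(2j) ≡ q² mod r`.
-/
import Fermat.Agent.S41.CspArith31.Dirichlet
import Mathlib.FieldTheory.Finite.Basic
import Mathlib.GroupTheory.OrderOfElement
import Mathlib.NumberTheory.LegendreSymbol.Basic

set_option autoImplicit false

namespace Fermat.Agent.S41.CspArith31

/-- **(R)**: the auxiliary prime `r`. `K` is any odd modulus (in the application the odd part of
`N * φ(2N) * p`), `a'` a modulus coprime to `4 * K` (in the application a large prime). -/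
theorem exists_prime_R (B : ℕ) {a' K κ : ℕ} (ha'0 : a' ≠ 0) (hK : Odd K)
    (ha' : a'.Coprime (4 * K)) (hκ : κ.Coprime a') :
    ∃ r > B, r.Prime ∧ r ≡ κ [MOD a'] ∧ r ≡ 3 [MOD 4] ∧ r ≡ 2 [MOD K] := by
  have hK0 : K ≠ 0 := by
    rintro rfl
    simp at hK
  have h4K : Nat.Coprime 4 K := by
    have : Nat.Coprime 2 K := (Nat.coprime_two_left).2 hK
    simpa using Nat.Coprime.pow_left 2 this
  have h2K : Nat.Coprime 2 K := (Nat.coprime_two_left).2 hK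
  have ha4 : a'.Coprime 4 := Nat.Coprime.coprime_mul_right_right ha'
  have haK : a'.Coprime K := Nat.Coprime.coprime_mul_left_right ha'
  exact exists_prime_gt_modEq_three B ha'0 (by norm_num) hK0 ha4 haK h4K hκ (by norm_num) h2K

/-- if `r ≡ 2 mod K` then `r - 1` is coprime to `K`. -/
theorem coprime_pred_of_modEq_two {r K : ℕ} (hr : 1 ≤ r) (h : r ≡ 2 [MOD K]) :
    (r - 1).Coprime K := by
  have h1 : r - 1 + 1 ≡ 1 + 1 [MOD K] := by
    rw [Nat.sub_add_cancel hr]; exact h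
  have h2 : r - 1 ≡ 1 [MOD K] := Nat.ModEq.add_right_cancel' 1 h1
  have := h2.gcd_eq
  rw [Nat.Coprime, this]; simp

/-- if `r ≡ 2 mod K`, `K` odd, then `r` is coprime to `K`. -/
theorem coprime_of_modEq_two {r K : ℕ} (hK : Odd K) (h : r ≡ 2 [MOD K]) : r.Coprime K := by
  have := h.gcd_eq
  rw [Nat.Coprime, this]
  exact (Nat.coprime_two_left).2 hK

/-- if `r ≡ 3 mod 4` then `(r - 1) / 2` is odd. -/
theorem odd_half_pred_of_mod_four {r : ℕ} (h : r ≡ 3 [MOD 4]) : Odd ((r - 1) / 2) := by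
  have h' : r % 4 = 3 := h
  rw [Nat.odd_iff]
  omega

/-- if `r ≡ 3 mod 4` then `r` is odd. -/
theorem odd_of_mod_four {r : ℕ} (h : r ≡ 3 [MOD 4]) : Odd r := by
  have h' : r % 4 = 3 := h
  rw [Nat.odd_iff]
  omega

/-- if `r ≡ 3 mod 4` and `r ≡ 2 mod K` then `(r-1)/2` is coprime to `2 * K`. -/
theorem coprime_half_pred {r K : ℕ} (hr : 1 ≤ r) (h4 : r ≡ 3 [MOD 4]) (hK : r ≡ 2 [MOD K]) :
    ((r - 1) / 2).Coprime (2 * K) := by
  have hodd := odd_half_pred_of_mod_four h4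
  have h1 : ((r - 1) / 2).Coprime 2 := (Nat.coprime_two_right).2 hodd
  have h2 : (r - 1).Coprime K := coprime_pred_of_modEq_two hr hK
  have h3 : ((r - 1) / 2) ∣ (r - 1) := Nat.div_dvd_of_dvd (by
    have h' : r % 4 = 3 := h4
    omega)
  exact Nat.Coprime.mul_right h1 (Nat.Coprime.coprime_dvd_left h3 h2)

/-- `-1` is not a square mod a prime `r ≡ 3 mod 4`. -/
theorem neg_one_not_square {r : ℕ} [Fact r.Prime] (h4 : r ≡ 3 [MOD 4]) :
    ¬ IsSquare (-1 : ZMod r) := by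
  have h' : r % 4 = 3 := h4
  rw [ZMod.exists_sq_eq_neg_one_iff]
  omega

/-- the order of a square in `(ℤ/r)ˣ` divides `(r-1)/2`. -/
theorem orderOf_sq_dvd_half {r : ℕ} [hr : Fact r.Prime] (hr2 : r ≠ 2) {x : ZMod r} (hx : x ≠ 0) :
    orderOf (x ^ 2) ∣ (r - 1) / 2 := by
  apply orderOf_dvd_of_pow_eq_one
  rw [← pow_mul]
  have hodd : r % 2 = 1 := hr.out.eq_two_or_odd.resolve_left hr2
  have : 2 * ((r - 1) / 2) = r - 1 := by omega
  rw [this]
  exact ZMod.pow_card_sub_one_eq_one hx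

/-- **(RHO)**: the auxiliary prime `ρ` and the exponent `j`.
`r` prime, `q` coprime to `r` and to `D₂`; `n = ord_r(q²)` is odd, coprime to `D₁ * r` and to
`φ(D₂)`.  Then for every class `c` coprime to `D₁ * r` there is a prime `ρ > B`, `ρ ≡ c mod D₁ r`
and `j ≥ 1` with `q^(2j) ≡ 1 mod D₂ ρ` and `q^(2j) ≡ q² mod r`. -/
theorem exists_rho_j (B : ℕ) {q r D₁ D₂ c : ℕ} [hr : Fact r.Prime] (hD₁ : D₁ ≠ 0) (hD₂ : D₂ ≠ 0)
    (hqD₂ : q.Coprime D₂)
    (hn2 : (orderOf ((q : ZMod r) ^ 2)).Coprime 2)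
    (hn1 : (orderOf ((q : ZMod r) ^ 2)).Coprime (D₁ * r))
    (hnφ : (orderOf ((q : ZMod r) ^ 2)).Coprime (Nat.totient D₂))
    (hc : c.Coprime (D₁ * r)) :
    ∃ ρ > B, ρ.Prime ∧ ρ ≡ c [MOD D₁ * r] ∧ ∃ j : ℕ, 1 ≤ j ∧
      q ^ (2 * j) ≡ 1 [MOD D₂ * ρ] ∧ ((q : ZMod r) ^ (2 * j) = (q : ZMod r) ^ 2) := by
  set n := orderOf ((q : ZMod r) ^ 2) with hn
  have hr0 : r ≠ 0 := hr.out.ne_zero
  have hn0 : n ≠ 0 := by
    intro h0
    rw [h0] at hn2
    simp at hn2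
  -- the prime ρ
  obtain ⟨ρ, hρB, hρ, hρc, hρ2⟩ := exists_prime_gt_modEq_two (max B (max q D₂))
    (Nat.mul_ne_zero hD₁ hr0) hn0 hn1.symm hc (Nat.Coprime.symm hn2)
  have hρB' : B < ρ := lt_of_le_of_lt (le_max_left _ _) hρB
  have hρq : q < ρ := lt_of_le_of_lt (le_trans (le_max_left _ _) (le_max_right _ _)) hρB
  have hρD : D₂ < ρ := lt_of_le_of_lt (le_trans (le_max_right _ _) (le_max_right _ _)) hρB
  refine ⟨ρ, hρB', hρ, hρc, ?_⟩
  -- gcd(ρ - 1, n) = 1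
  have hρ1 : (ρ - 1).Coprime n := coprime_pred_of_modEq_two hρ.one_le hρ2
  -- q coprime to D₂ * ρ
  have hq0 : q ≠ 0 := by
    rintro rfl
    rw [Nat.coprime_zero_left] at hqD₂
    -- D₂ = 1; still need q ≠ 0: use n odd etc.  q = 0 gives (0:ZMod r)^2 = 0, orderOf 0 = 0
    have : orderOf ((((0 : ℕ) : ZMod r)) ^ 2) = 0 := by
      simp only [Nat.cast_zero, ne_eq, OfNat.ofNat_ne_zero, not_false_eq_true, zero_pow]
      rw [orderOf_eq_zero_iff]
      intro hfin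
      obtain ⟨m, hm, hm'⟩ := hfin.exists_pow_eq_one
      rw [zero_pow hm.ne'] at hm'
      exact zero_ne_one hm'
    exact hn0 this
  have hqρ : q.Coprime ρ := by
    rw [Nat.coprime_comm, Nat.Prime.coprime_iff_not_dvd hρ]
    intro hd
    exact absurd (Nat.le_of_dvd (Nat.pos_of_ne_zero hq0) hd) (not_le.2 hρq)
  have hD₂ρ : D₂.Coprime ρ := by
    rw [Nat.coprime_comm, Nat.Prime.coprime_iff_not_dvd hρ]
    intro hd
    exact absurd (Nat.le_of_dvd (Nat.pos_of_ne_zero hD₂) hd) (not_le.2 hρD)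
  have hqDρ : q.Coprime (D₂ * ρ) := Nat.Coprime.mul_right hqD₂ hqρ
  -- E = φ(D₂ ρ) = φ(D₂) (ρ - 1)
  set E := Nat.totient (D₂ * ρ) with hE
  have hEval : E = Nat.totient D₂ * (ρ - 1) := by
    rw [hE, Nat.totient_mul hD₂ρ, Nat.totient_prime hρ]
  have hEn : E.Coprime n := by
    rw [hEval]
    exact Nat.Coprime.mul_left hnφ.symm hρ1
  have hE0 : E ≠ 0 := by
    rw [hE]
    exact (Nat.totient_pos.2 (Nat.pos_of_ne_zero (Nat.mul_ne_zero hD₂ hρ.ne_zero))).ne'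
  obtain ⟨j₀, hj0E, hj0n⟩ := Nat.chineseRemainder hEn 0 1
  refine ⟨j₀ + E * n, ?_, ?_, ?_⟩
  · have : 1 ≤ E * n := Nat.one_le_iff_ne_zero.2 (Nat.mul_ne_zero hE0 hn0)
    omega
  · -- q^(2j) ≡ 1 mod D₂ ρ
    have hjE : E ∣ j₀ + E * n := by
      have : E ∣ j₀ := (Nat.modEq_zero_iff_dvd).1 hj0E
      exact Dvd.dvd.add this (dvd_mul_right _ _)
    obtain ⟨s, hs⟩ := hjE
    have hEuler : q ^ E ≡ 1 [MOD D₂ * ρ] := Nat.ModEq.pow_totient hqDρ
    calc q ^ (2 * (j₀ + E * n)) = (q ^ E) ^ (2 * s) := by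
          rw [hs, ← pow_mul]; ring_nf
      _ ≡ 1 ^ (2 * s) [MOD D₂ * ρ] := Nat.ModEq.pow _ hEuler
      _ = 1 := one_pow _
  · -- q^(2j) = q^2 in ZMod r
    have hjn : j₀ + E * n ≡ 1 [MOD n] := by
      have : j₀ + E * n ≡ j₀ + 0 [MOD n] :=
        Nat.ModEq.add_left j₀ ((Nat.modEq_zero_iff_dvd).2 (dvd_mul_left _ _))
      simpa using this.trans hj0n
    have : ((q : ZMod r) ^ 2) ^ (j₀ + E * n) = ((q : ZMod r) ^ 2) ^ 1 := by
      rw [← pow_mod_orderOf, ← pow_mod_orderOf (n := 1), ← hn]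
      congr 1
    rw [pow_mul, this, pow_one]

end Fermat.Agent.S41.CspArith31
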