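/-
S41 / CSP backup route (helper7 #3041), [ARITH] (helper31): the packaged forms of §3 (ii), (iii).
-/
import Fermat.Agent.S41.CspArith31.Arith

set_option autoImplicit false

namespace Fermat.Agent.S41.CspArith31

/-- **§3 (ii), packaged.** `T` is any positive integer (in the application
`T = N * φ(2N) * p`), `a'` a prime larger than every prime factor of `2 * T`.
There is a prime `r > B` with `r ≡ κ mod a'`, `r ≡ 3 mod 4`, and `(r-1)/2` coprime to `2 * T`,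
`r` coprime to `T`. -/
theorem exists_r_package (B : ℕ) {T a' κ : ℕ} (hT : T ≠ 0) (ha' : a'.Prime)
    (hbig : ∀ ℓ : ℕ, ℓ.Prime → ℓ ∣ 2 * T → ℓ < a') (hκ : κ.Coprime a') :
    ∃ r > B, r.Prime ∧ r ≡ κ [MOD a'] ∧ r ≡ 3 [MOD 4] ∧ r.Coprime T ∧ (r - 1).Coprime (ordCompl[2] T) ∧
      ((r - 1) / 2).Coprime (2 * T) := by
  set K := ordCompl[2] T with hK
  have hKodd : Odd K := by
    rw [← Nat.not_even_iff_odd, even_iff_two_dvd]
    exact Nat.not_dvd_ordCompl Nat.prime_two hT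
  have hKT : K ∣ T := Nat.ordCompl_dvd T 2
  have hsplit : ordProj[2] T * K = T := Nat.ordProj_mul_ordCompl_eq_self T 2
  have ha'4K : a'.Coprime (4 * K) := by
    rw [Nat.Prime.coprime_iff_not_dvd ha']
    intro hd
    rcases (Nat.Prime.dvd_mul ha').1 hd with h4 | hKd
    · have h2 : a' ∣ 2 := by
        have : a' ∣ 2 ^ 2 := by norm_num; exact h4
        exact ha'.dvd_of_dvd_pow this
      have := hbig a' ha' (Dvd.dvd.mul_right h2 T)
      exact lt_irrefl _ this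
    · have := hbig a' ha' (Dvd.dvd.mul_left (hKd.trans hKT) 2)
      exact lt_irrefl _ this
  obtain ⟨r, hrB, hr, hrκ, hr4, hrK⟩ := exists_prime_R B ha'.ne_zero hKodd ha'4K hκ
  have hr1 : 1 ≤ r := hr.one_le
  have hrodd : Odd r := odd_of_mod_four hr4
  have hcopK : r.Coprime K := coprime_of_modEq_two hKodd hrK
  have hcop2 : r.Coprime (ordProj[2] T) := by
    apply Nat.Coprime.pow_right
    exact (Nat.coprime_two_right).2 hrodd
  have hrT : r.Coprime T := by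
    rw [← hsplit]
    exact Nat.Coprime.mul_right hcop2 hcopK
  have hpredK : (r - 1).Coprime K := coprime_pred_of_modEq_two hr1 hrK
  have hhalf : ((r - 1) / 2).Coprime (2 * K) := coprime_half_pred hr1 hr4 hrK
  have hhalf2 : ((r - 1) / 2).Coprime 2 := Nat.Coprime.coprime_mul_right_right hhalf
  have hhalfK : ((r - 1) / 2).Coprime K := Nat.Coprime.coprime_mul_left_right hhalf
  have hhalfT : ((r - 1) / 2).Coprime T := by
    rw [← hsplit]
    exact Nat.Coprime.mul_right (Nat.Coprime.pow_right _ hhalf2) hhalfK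
  exact ⟨r, hrB, hr, hrκ, hr4, hrT, hpredK, Nat.Coprime.mul_right hhalf2 hhalfT⟩

/-- an odd prime `p ∣ T` does not divide `r - 1` when `r - 1` is coprime to the odd part of `T`. -/
theorem not_dvd_pred_of_coprime {T p r : ℕ} (hp : p.Prime) (hp2 : p ≠ 2) (hpT : p ∣ T)
    (h : (r - 1).Coprime (ordCompl[2] T)) : ¬ p ∣ r - 1 := by
  intro hd
  have hpK : p ∣ ordCompl[2] T := by
    have hsplit : ordProj[2] T * ordCompl[2] T = T := Nat.ordProj_mul_ordCompl_eq_self T 2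
    rw [← hsplit] at hpT
    have hcop : p.Coprime (ordProj[2] T) := by
      apply Nat.Coprime.pow_right
      rw [Nat.coprime_primes hp Nat.prime_two]
      exact hp2
    exact hcop.dvd_of_dvd_mul_left hpT
  have := Nat.eq_one_of_dvd_coprimes h hd hpK
  exact hp.one_lt.ne' this

/-- facts about `n_r = ord_r(q²)` for the prime `r` of `exists_r_package`. -/
theorem orderOf_sq_coprime {T q r : ℕ} [hr : Fact r.Prime] (hr2 : r ≠ 2) (hqr : ¬ r ∣ q)
    (h : ((r - 1) / 2).Coprime (2 * T)) :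
    (orderOf ((q : ZMod r) ^ 2)).Coprime 2 ∧ (orderOf ((q : ZMod r) ^ 2)).Coprime T ∧
      (orderOf ((q : ZMod r) ^ 2)).Coprime r := by
  have hq0 : (q : ZMod r) ≠ 0 := by
    rwa [Ne, ZMod.natCast_eq_zero_iff]
  have hdvd := orderOf_sq_dvd_half (r := r) hr2 hq0
  have h2 : ((r - 1) / 2).Coprime 2 := Nat.Coprime.coprime_mul_right_right h
  have hT : ((r - 1) / 2).Coprime T := Nat.Coprime.coprime_mul_left_right h
  refine ⟨Nat.Coprime.coprime_dvd_left hdvd h2, Nat.Coprime.coprime_dvd_left hdvd hT, ?_⟩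
  rw [Nat.coprime_comm, Nat.Prime.coprime_iff_not_dvd hr.out]
  intro hd
  have hpos : 0 < (r - 1) / 2 := by
    have := hr.out.two_le
    have hodd : r % 2 = 1 := hr.out.eq_two_or_odd.resolve_left hr2
    omega
  have hle : r ≤ (r - 1) / 2 := Nat.le_of_dvd hpos (hd.trans hdvd)
  omega

end Fermat.Agent.S41.CspArith31

namespace Fermat.Agent.S41.CspArith31

/-- **§3 (iii), `N` odd** (`t = ρ`): from the output of `exists_r_package` with
`T = N * φ(2N) * p`. -/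
theorem exists_rho_j_odd (B : ℕ) {N p q r t0 : ℕ} [hr : Fact r.Prime] (hN0 : N ≠ 0) (hN : Odd N)
    (hqN : q.Coprime N) (hr2 : r ≠ 2) (hqr : ¬ r ∣ q)
    (h : ((r - 1) / 2).Coprime (2 * (N * Nat.totient (2 * N) * p)))
    (ht0 : t0.Coprime (N * r)) :
    ∃ ρ > B, ρ.Prime ∧ ρ ≡ t0 [MOD N * r] ∧ ∃ j : ℕ, 1 ≤ j ∧
      q ^ (2 * j) ≡ 1 [MOD N * ρ] ∧ ((q : ZMod r) ^ (2 * j) = (q : ZMod r) ^ 2) := by
  obtain ⟨hn2, hnT, hnr⟩ := orderOf_sq_coprime (T := N * Nat.totient (2 * N) * p) hr2 hqr h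
  have hnN : (orderOf ((q : ZMod r) ^ 2)).Coprime N :=
    Nat.Coprime.coprime_dvd_right (Dvd.intro _ (by rw [mul_assoc])) hnT
  have hφ : Nat.totient (2 * N) = Nat.totient N := by
    rw [Nat.totient_mul ((Nat.coprime_two_left).2 hN), Nat.totient_two, one_mul]
  have hnφ : (orderOf ((q : ZMod r) ^ 2)).Coprime (Nat.totient N) := by
    rw [← hφ]
    exact Nat.Coprime.coprime_dvd_right
      (Dvd.intro_left _ (rfl : N * Nat.totient (2 * N) = N * Nat.totient (2 * N)) |>.mul_right p) hnT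
  exact exists_rho_j B hN0 hN0 hqN hn2 (Nat.Coprime.mul_right hnN hnr) hnφ ht0

/-- **§3 (iii), `N` even** (`t = 2ρ`, `q` odd): from the output of `exists_r_package` with
`T = N * φ(2N) * p`.  `t0` is an even representative with `t0 / 2` coprime to `(N/2) * r`. -/
theorem exists_rho_j_even (B : ℕ) {N p q r t0 : ℕ} [hr : Fact r.Prime] (hN0 : N ≠ 0) (hN : Even N)
    (hqN : q.Coprime (2 * N)) (hr2 : r ≠ 2) (hqr : ¬ r ∣ q)
    (h : ((r - 1) / 2).Coprime (2 * (N * Nat.totient (2 * N) * p)))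
    (ht0e : Even t0) (ht0 : (t0 / 2).Coprime (N / 2 * r)) :
    ∃ ρ > B, ρ.Prime ∧ 2 * ρ ≡ t0 [MOD N * r] ∧ ∃ j : ℕ, 1 ≤ j ∧
      q ^ (2 * j) ≡ 1 [MOD 2 * N * ρ] ∧ ((q : ZMod r) ^ (2 * j) = (q : ZMod r) ^ 2) := by
  obtain ⟨hn2, hnT, hnr⟩ := orderOf_sq_coprime (T := N * Nat.totient (2 * N) * p) hr2 hqr h
  have hnN : (orderOf ((q : ZMod r) ^ 2)).Coprime N :=
    Nat.Coprime.coprime_dvd_right (Dvd.intro _ (by rw [mul_assoc])) hnT
  have hnφ : (orderOf ((q : ZMod r) ^ 2)).Coprime (Nat.totient (2 * N)) :=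
    Nat.Coprime.coprime_dvd_right
      (Dvd.intro_left _ (rfl : N * Nat.totient (2 * N) = N * Nat.totient (2 * N)) |>.mul_right p) hnT
  have hN2 : N / 2 * 2 = N := Nat.div_mul_cancel (even_iff_two_dvd.1 hN)
  have hNhalf0 : N / 2 ≠ 0 := by
    intro h0; rw [h0] at hN2; exact hN0 (by omega)
  have hnNhalf : (orderOf ((q : ZMod r) ^ 2)).Coprime (N / 2) :=
    Nat.Coprime.coprime_dvd_right (Dvd.intro _ hN2) hnN
  have h2N0 : 2 * N ≠ 0 := Nat.mul_ne_zero (by norm_num) hN0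
  obtain ⟨ρ, hρB, hρ, hρc, j, hj1, hj2, hj3⟩ := exists_rho_j B hNhalf0 h2N0 hqN hn2
    (Nat.Coprime.mul_right hnNhalf hnr) hnφ ht0
  refine ⟨ρ, hρB, hρ, ?_, j, hj1, hj2, hj3⟩
  have h1 : 2 * ρ ≡ 2 * (t0 / 2) [MOD 2 * (N / 2 * r)] := Nat.ModEq.mul_left' 2 hρc
  have h2 : 2 * (t0 / 2) = t0 := Nat.two_mul_div_two_of_even ht0e
  have h3 : 2 * (N / 2 * r) = N * r := by rw [← mul_assoc, mul_comm 2 (N / 2), hN2]
  rwa [h2, h3] at h1

end Fermat.Agent.S41.CspArith31
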